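/-
S18 / wave 4 (helper28): DEFINITIONS for the bridge `exists_setup` (packages B1–B7).  Sorry-free,
definitions and trivial lemmas only; import this file from the B-leaves.

* `kA A`        : the residue field of `A`;
* `redA A`, `incA A` : reduction of an `A`-integral Laurent series, resp. its image over `ℚ̄`;
* `jFN N' d hd`, `jtop N'` : `j(q^d)` resp. `j(q^{N'})` as elements of `F_{N'} = FN N'`;
* `IsGaussRing A N' O` : `O` is the Gauss valuation ring of `F_{N'}` (ratios of integral series);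
* `BranchOK A x` : the fields `branch` and `branch_inv` of `H74.Setup` for the base function `x`;
* `nmTwo = (X + 16)³`, `nmThree = (X + 27)(X + 3)³` : the Hauptmodul relations
  `j(q^{N'}) x = nm(x)` of levels two and three.
-/
import Fermat.Agent.S18.H74.TopDefs
import Fermat.Agent.S18.H74.Setup
import Fermat.Prelude.Def_ModularCurve_X0ModL
import Fermat.Prelude.Def_ModularCurve_JqCoeff

set_option autoImplicit false

open AlgebraicCurve IntermediateField ModularCurve

noncomputable section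

namespace Fermat.Agent.S18.H28

open Fermat.Agent.S18.H74

/-- The residue field of `A`. -/
abbrev kA (A : ValuationSubring Kb) : Type := IsLocalRing.ResidueField A

/-- Reduction of an `A`-integral series. -/
abbrev redA (A : ValuationSubring Kb) : LaurentSeries A →+* LaurentSeries (kA A) :=
  coeffMap (IsLocalRing.residue A)

/-- An `A`-integral series, as a series over `ℚ̄`. -/
abbrev incA (A : ValuationSubring Kb) : LaurentSeries A →+* LaurentSeries Kb :=
  coeffMap A.subtype

/-- `j(q^d)` as an element of `F_{N'}`, for `d ∣ N'`. -/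
def jFN (N' d : ℕ) [NeZero d] (hd : d ∣ N') : FN N' :=
  ⟨coeffEmb Kb (qExpand ℚ d jq), coeffEmb_mem_laurentBaseChange Kb (jqd_mem_full N' hd)⟩

/-- The top function `j(q^{N'})` of `F_{N'}` (the base function of the landed S28 degrees). -/
abbrev jtop (N' : ℕ) [NeZero N'] : FN N' := jFN N' N' dvd_rfl

@[simp] theorem coe_jFN (N' d : ℕ) [NeZero d] (hd : d ∣ N') :
    ((jFN N' d hd : FN N') : LaurentSeries Kb) = coeffEmb Kb (qExpand ℚ d jq) := rfl

/-- `j(q^d)` as an `A`-integral series. -/
abbrev jA (A : ValuationSubring Kb) (d : ℕ) [NeZero d] : LaurentSeries A := jqNModC A d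

/-- `O` is the Gauss valuation ring of `F_{N'}`: its elements are the ratios `y₁ / y₂` of
`A`-integral series with `y₂` of nonzero reduction. -/
def IsGaussRing (A : ValuationSubring Kb) (N' : ℕ) (O : ValuationSubring (FN N')) : Prop :=
  ∀ f : FN N', f ∈ O ↔ ∃ y₁ y₂ : LaurentSeries A, redA A y₂ ≠ 0 ∧
    (f : LaurentSeries Kb) * incA A y₂ = incA A y₁

/-- The two branch fields of `H74.Setup` for the base function `x`. -/
def BranchOK (A : ValuationSubring Kb) {N' : ℕ} (x : FN N') : Prop :=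
  (∃ S : Finset Kb, (∀ c ∈ S, c ∈ A) ∧ (∀ c ∈ S, ∀ c' ∈ S, c ≠ c' → (c - c')⁻¹ ∈ A) ∧
    ∀ (P : Place Kb (FN N')) (c : Kb), c ∉ S →
      0 < P.ord (x - algebraMap Kb (FN N') c) → P.ord (x - algebraMap Kb (FN N') c) = 1) ∧
  (∃ S : Finset Kb, (∀ c ∈ S, c ∈ A) ∧ (∀ c ∈ S, ∀ c' ∈ S, c ≠ c' → (c - c')⁻¹ ∈ A) ∧
    ∀ (P : Place Kb (FN N')) (c : Kb), c ∉ S →
      0 < P.ord (x⁻¹ - algebraMap Kb (FN N') c) → P.ord (x⁻¹ - algebraMap Kb (FN N') c) = 1)

/-! ### The Hauptmodul relations -/

/-- The polynomial `(X + 16)³` (level two). -/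
def nmTwo : Polynomial ℤ := (Polynomial.X + Polynomial.C 16) ^ 3

/-- The polynomial `(X + 27)(X + 3)³` (level three). -/
def nmThree : Polynomial ℤ :=
  (Polynomial.X + Polynomial.C 27) * (Polynomial.X + Polynomial.C 3) ^ 3

theorem nmTwo_monic : nmTwo.Monic := (Polynomial.monic_X_add_C (16 : ℤ)).pow 3

theorem nmThree_monic : nmThree.Monic :=
  (Polynomial.monic_X_add_C (27 : ℤ)).mul ((Polynomial.monic_X_add_C (3 : ℤ)).pow 3)

theorem nmTwo_natDegree : nmTwo.natDegree = 3 := by
  rw [nmTwo, (Polynomial.monic_X_add_C (16 : ℤ)).natDegree_pow, Polynomial.natDegree_X_add_C]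

theorem nmThree_natDegree : nmThree.natDegree = 4 := by
  rw [nmThree, (Polynomial.monic_X_add_C (27 : ℤ)).natDegree_mul
    ((Polynomial.monic_X_add_C (3 : ℤ)).pow 3),
    (Polynomial.monic_X_add_C (3 : ℤ)).natDegree_pow, Polynomial.natDegree_X_add_C,
    Polynomial.natDegree_X_add_C]

theorem nmTwo_eval_zero : nmTwo.eval 0 = 4096 := by
  simp [nmTwo]

theorem nmThree_eval_zero : nmThree.eval 0 = 729 := by
  simp [nmThree]

theorem eval₂_nmTwo {R : Type*} [CommRing R] (x : R) :
    Polynomial.eval₂ (Int.castRingHom R) x nmTwo = (x + 16) ^ 3 := by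
  rw [nmTwo, Polynomial.eval₂_pow, Polynomial.eval₂_add, Polynomial.eval₂_X, Polynomial.eval₂_C,
    eq_intCast, Int.cast_ofNat]

theorem eval₂_nmThree {R : Type*} [CommRing R] (x : R) :
    Polynomial.eval₂ (Int.castRingHom R) x nmThree = (x + 27) * (x + 3) ^ 3 := by
  rw [nmThree, Polynomial.eval₂_mul, Polynomial.eval₂_pow, Polynomial.eval₂_add,
    Polynomial.eval₂_add, Polynomial.eval₂_X, Polynomial.eval₂_C, Polynomial.eval₂_C,
    eq_intCast, eq_intCast, Int.cast_ofNat, Int.cast_ofNat]

end Fermat.Agent.S18.H28
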