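/-
S18 / wave 4 (helper28): the landed S28 facts on the special fibre, in the shape of the bridge
`exists_setup`, for the residue field `k = kA A` and the top function `j̄(q^{N'})`:
* `psi_le_relfinrank_kA` : `ψ(N') ≤ [F_k : k(j̄(q^{N'}))]`  (S28 `dedekindPsi_le_relfinrank_algClosed`);
* `separable_kA`         : `F_k / k(j̄(q^{N'}))` is separable (helper85's `H85.isSeparable_full`);
* `separable_kA_of_le`   : the same over any intermediate field containing `j̄(q^{N'})`.
Sorry-free.
-/
import Fermat.Agent.S18.H28.Residue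
import Fermat.Agent.S18.H85.SepFull
import Fermat.Agent.S28.H53.Final
import Fermat.Agent.S28.H23.HasModPolys
import Fermat.Prelude.Def_ModularCurve_GenusNumerics

set_option autoImplicit false

open AlgebraicCurve IntermediateField ModularCurve

noncomputable section

namespace Fermat.Agent.S18.H28

open Fermat.Agent.S18.H74 Fermat.Agent.S28

theorem jS_one_eq_jqNModC (k : Type) [Field k] (N' : ℕ) [NeZero N'] :
    jS k 1 N' = jqNModC k N' :=
  H53.jS_one_left k N'

/-- `ψ(N') ≤ [F_k : k(j̄(q^{N'}))]` (landed S28). -/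
theorem psi_le_relfinrank_kA (N' : ℕ) [NeZero N'] {ℓ : ℕ} [Fact ℓ.Prime] (hℓN' : ¬ ℓ ∣ N')
    (A : ValuationSubring Kb) (hA : A.LiesOverPrime ℓ) :
    dedekindPsi N' ≤ IntermediateField.relfinrank
      (IntermediateField.adjoin (kA A) {jqNModC (kA A) N'})
      (modularFunctionFieldFullC (kA A) N') := by
  have := kA_isAlgClosed A
  have := kA_charP A hA
  have h := dedekindPsi_le_relfinrank_algClosed H23.hasModPolys (kA A) ℓ N' (NeZero.ne N') hℓN'
  rwa [H53.adjoin_setOf_jS_eq_full (kA A) N' (NeZero.ne N'), jS_one_eq_jqNModC] at h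

/-- `F_k` is separable over every intermediate field containing `j̄(q^{N'})`. -/
theorem separable_kA_of_mem (N' : ℕ) [NeZero N'] {ℓ : ℕ} [Fact ℓ.Prime] (hℓN' : ¬ ℓ ∣ N')
    (A : ValuationSubring Kb) (hA : A.LiesOverPrime ℓ)
    (E₀ : IntermediateField (kA A) (LaurentSeries (kA A))) (hE₀ : jqNModC (kA A) N' ∈ E₀) :
    ∀ y ∈ modularFunctionFieldFullC (kA A) N', IsSeparable E₀ y := by
  have := kA_isAlgClosed A
  have := kA_charP A hA
  intro y hy
  refine Fermat.Agent.S18.H85.isSeparable_full_of_mem H23.hasModPolys (kA A) ℓ N' (NeZero.ne N')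
    hℓN' E₀ ?_ y ?_
  · rw [jS_one_eq_jqNModC]; exact hE₀
  · rw [H53.adjoin_setOf_jS_eq_full (kA A) N' (NeZero.ne N')]; exact hy

/-- `F_k / k(j̄(q^{N'}))` is separable. -/
theorem separable_kA (N' : ℕ) [NeZero N'] {ℓ : ℕ} [Fact ℓ.Prime] (hℓN' : ¬ ℓ ∣ N')
    (A : ValuationSubring Kb) (hA : A.LiesOverPrime ℓ) :
    ∀ y ∈ modularFunctionFieldFullC (kA A) N',
      IsSeparable (IntermediateField.adjoin (kA A) {jqNModC (kA A) N'}) y :=
  separable_kA_of_mem N' hℓN' A hA _ (IntermediateField.subset_adjoin _ _ (Set.mem_singleton _))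

end Fermat.Agent.S18.H28
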