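/-
S18 / wave 4 (helper28): the branch fields of `H74.Setup` for the three base functions of the
bridge, from helper50's landed S24 bridge (`H50.branchJ_jtop` and the level two / three transfers).
Sorry-free.
-/
import Fermat.Agent.S18.H28.BridgeDefs
import Fermat.Agent.S18.H50.Transfer

set_option autoImplicit false

open AlgebraicCurve IntermediateField ModularCurve

noncomputable section

namespace Fermat.Agent.S18.H28

open Fermat.Agent.S18.H74

/-- `jtop N'` is the function `jF N' (topDiv N')` of the S24 closure. -/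
theorem jtop_eq_jF (N' : ℕ) [NeZero N'] :
    jtop N' = Fermat.Agent.S24.jF N' (Fermat.Agent.S24.topDiv N') := rfl

theorem branchJ_jtop (N' : ℕ) [NeZero N'] : Fermat.Agent.S18.H50.BranchJ Kb (jtop N') :=
  Fermat.Agent.S18.H50.branchJ_jtop N'

theorem two_ne_zero_Kb : (2 : Kb) ≠ 0 := two_ne_zero

theorem three_ne_zero_Kb : (3 : Kb) ≠ 0 := three_ne_zero

/-- The top function, `ℓ ≥ 5`: `S = {0, 1728}`, `S' = {0, 1/1728}`. -/
theorem branchOK_top (N' : ℕ) [NeZero N'] (A : ValuationSubring Kb)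
    (h2 : (2 : Kb)⁻¹ ∈ A) (h3 : (3 : Kb)⁻¹ ∈ A) : BranchOK A (jtop N') :=
  ⟨Fermat.Agent.S18.H50.branch_of_branchJ A (branchJ_jtop N') h2 h3,
    Fermat.Agent.S18.H50.branch_inv_of_branchJ A (branchJ_jtop N') two_ne_zero_Kb
      three_ne_zero_Kb h2 h3⟩

/-- A base function `x` with `j(q^{N'}) x = (x + 16)³` (Hauptmodul of `X₀(2)`; used for `ℓ = 3`):
`S = {0, -64}`, `S' = {0, -1/64}`. -/
theorem branchOK_two (N' : ℕ) [NeZero N'] (A : ValuationSubring Kb)
    (h2 : (2 : Kb)⁻¹ ∈ A) (x : FN N') (hrel : jtop N' * x = (x + 16) ^ 3) : BranchOK A x :=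
  ⟨Fermat.Agent.S18.H50.branch_of_level_two A (branchJ_jtop N') two_ne_zero_Kb three_ne_zero_Kb
      h2 hrel,
    Fermat.Agent.S18.H50.branch_inv_of_level_two A (branchJ_jtop N') two_ne_zero_Kb
      three_ne_zero_Kb h2 hrel⟩

/-- A base function `x` with `j(q^{N'}) x = (x + 27)(x + 3)³` (Hauptmodul of `X₀(3)`; used for
`ℓ = 2`): `S = {0, -27}`, `S' = {0, -1/27}`. -/
theorem branchOK_three (N' : ℕ) [NeZero N'] (A : ValuationSubring Kb)
    (h3 : (3 : Kb)⁻¹ ∈ A) (x : FN N') (hrel : jtop N' * x = (x + 27) * (x + 3) ^ 3) :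
    BranchOK A x :=
  ⟨Fermat.Agent.S18.H50.branch_of_level_three A (branchJ_jtop N') two_ne_zero_Kb
      three_ne_zero_Kb h3 hrel,
    Fermat.Agent.S18.H50.branch_inv_of_level_three A (branchJ_jtop N') two_ne_zero_Kb
      three_ne_zero_Kb h3 hrel⟩

end Fermat.Agent.S18.H28
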