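/-
S18 / wave 4 (helper28): the "ratio lemmas" for a Gauss ring `O` of `F_{N'}` (B1c of the bridge
`exists_setup`); no modular input:
* `IsGaussRing.mem_iff` : `O ∩ ℚ̄ = A`;
* `IsGaussRing.gauss`   : primitive polynomials in an integral base function with transcendental
  reduction are units of `O`;
* `IsGaussRing.oneUnit` : one-units of `F_N` (in the sense of `H74.IsOneUnit`) are one-units of `O`;
and the basic facts on the integral series `jA A d = j(q^d)`.
-/
import Fermat.Agent.S18.H28.BridgeDefs
import Fermat.Agent.S28.H40.CruxB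

set_option autoImplicit false

open AlgebraicCurve IntermediateField ModularCurve

noncomputable section

namespace Fermat.Agent.S18.H28

open Fermat.Agent.S18.H74

/-! ### Coefficientwise maps -/

theorem coeffMap_injective {R S : Type*} [CommRing R] [CommRing S] (f : R →+* S)
    (hf : Function.Injective f) : Function.Injective (coeffMap f) := by
  intro x y h
  ext n
  apply hf
  have := congrArg (fun z : LaurentSeries S => z.coeff n) h
  simpa using this

theorem incA_injective (A : ValuationSubring Kb) : Function.Injective (incA A) :=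
  coeffMap_injective _ Subtype.val_injective

theorem algebraMap_laurent_eq_C {R : Type*} [CommRing R] (a : R) :
    algebraMap R (LaurentSeries R) a = HahnSeries.C a := by
  rw [HahnSeries.algebraMap_apply', PowerSeries.algebraMap_apply, Algebra.algebraMap_self_apply,
    HahnSeries.ofPowerSeries_C]

theorem coeffMap_algebraMap_apply {R S : Type*} [CommRing R] [CommRing S] (f : R →+* S) (a : R) :
    coeffMap f (algebraMap R (LaurentSeries R) a) = algebraMap S (LaurentSeries S) (f a) := by
  rw [algebraMap_laurent_eq_C, algebraMap_laurent_eq_C, HahnSeries.C_apply, HahnSeries.C_apply,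
    coeffMap_single]

theorem coeffMap_comp_algebraMap {R S : Type*} [CommRing R] [CommRing S] (f : R →+* S) :
    (coeffMap f).comp (algebraMap R (LaurentSeries R)) = (algebraMap S (LaurentSeries S)).comp f :=
  RingHom.ext fun a => coeffMap_algebraMap_apply f a

/-- `coeffMap` commutes with polynomial evaluation. -/
theorem coeffMap_aeval {R S : Type*} [CommRing R] [CommRing S] (f : R →+* S)
    (X0 : LaurentSeries R) (p : Polynomial R) :
    coeffMap f (Polynomial.aeval X0 p) = Polynomial.aeval (coeffMap f X0) (p.map f) := by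
  rw [Polynomial.aeval_def, Polynomial.hom_eval₂, coeffMap_comp_algebraMap, Polynomial.aeval_def,
    Polynomial.eval₂_map]

theorem coeff_algebraMap_mul {R : Type*} [CommRing R] (a : R) (z : LaurentSeries R) (n : ℤ) :
    (algebraMap R (LaurentSeries R) a * z).coeff n = a * z.coeff n := by
  rw [algebraMap_laurent_eq_C, HahnSeries.C_mul_eq_smul, HahnSeries.coeff_smul, smul_eq_mul]

/-! ### The ratio lemmas -/

section Ratio

variable {A : ValuationSubring Kb} {N N' : ℕ} {O : ValuationSubring (FN N')}

/-- **B1c** `O ∩ ℚ̄ = A`. -/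
theorem IsGaussRing.mem_iff (hO : IsGaussRing A N' O) (a : Kb) :
    algebraMap Kb (FN N') a ∈ O ↔ a ∈ A := by
  constructor
  · intro h
    obtain ⟨y₁, y₂, hy₂, hmul⟩ := (hO _).mp h
    by_contra ha
    have hainv : a⁻¹ ∈ A := (A.mem_or_inv_mem a).resolve_left ha
    have ha0 : a ≠ 0 := fun h0 => ha (h0 ▸ A.zero_mem)
    apply hy₂
    ext n
    rw [coeffMap_coeff, HahnSeries.coeff_zero]
    have hcoeff := congrArg (fun z : LaurentSeries Kb => z.coeff n) hmul
    simp only [coeffMap_coeff] at hcoeff
    have hc : a * ((y₂.coeff n : A) : Kb) = ((y₁.coeff n : A) : Kb) := by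
      have h1 : ((algebraMap Kb (FN N') a : FN N') : LaurentSeries Kb)
          = algebraMap Kb (LaurentSeries Kb) a := rfl
      rw [h1, coeff_algebraMap_mul] at hcoeff
      exact hcoeff
    have hy : ((y₂.coeff n : A) : Kb) = a⁻¹ * ((y₁.coeff n : A) : Kb) := by
      rw [← hc, ← mul_assoc, inv_mul_cancel₀ ha0, one_mul]
    have hnon : a⁻¹ ∈ A.nonunits := by
      rw [ValuationSubring.mem_nonunits_iff_or, inv_inv]
      exact Or.inr ha
    have hmem : ((y₂.coeff n : A) : Kb) ∈ A.nonunits := by
      rw [hy, ValuationSubring.mem_nonunits_iff, map_mul]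
      have h1 : A.valuation a⁻¹ < 1 := A.mem_nonunits_iff.mp hnon
      have h2 : A.valuation ((y₁.coeff n : A) : Kb) ≤ 1 :=
        (A.valuation_le_one_iff _).mpr (y₁.coeff n).2
      calc A.valuation a⁻¹ * A.valuation ((y₁.coeff n : A) : Kb)
          ≤ A.valuation a⁻¹ * 1 := mul_le_mul_right h2 _
        _ = A.valuation a⁻¹ := mul_one _
        _ < 1 := h1
    rw [IsLocalRing.residue_eq_zero_iff, IsLocalRing.mem_maximalIdeal, mem_nonunits_iff]
    intro hu
    obtain ⟨hmem', hmax⟩ := ValuationSubring.mem_nonunits_iff_exists_mem_maximalIdeal.mp hmem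
    exact (IsLocalRing.mem_maximalIdeal _).mp hmax hu
  · intro ha
    refine (hO _).mpr ⟨HahnSeries.single 0 (⟨a, ha⟩ : A), 1, ?_, ?_⟩
    · rw [map_one]; exact one_ne_zero
    · rw [map_one, mul_one, coeffMap_single]
      show algebraMap Kb (LaurentSeries Kb) a = _
      rw [algebraMap_laurent_eq_C, HahnSeries.C_apply]
      rfl

/-- **B1c** primitive polynomials in an integral base function with transcendental reduction are
units of `O`. -/
theorem IsGaussRing.gauss (hO : IsGaussRing A N' O) (X0 : LaurentSeries A) (x : FN N')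
    (hx : (x : LaurentSeries Kb) = incA A X0) (htr : Transcendental (kA A) (redA A X0))
    (p : Polynomial Kb) (hp : ∀ i, p.coeff i ∈ A) (hp1 : ∃ i, p.coeff i ≠ 0 ∧ (p.coeff i)⁻¹ ∈ A) :
    Polynomial.aeval x p ∈ O ∧ (Polynomial.aeval x p)⁻¹ ∈ O := by
  classical
  -- the polynomial over `A`
  have hpl : p ∈ Polynomial.lifts (A.subtype) := by
    rw [Polynomial.lifts_iff_coeff_lifts]
    intro n
    exact ⟨⟨p.coeff n, hp n⟩, rfl⟩
  obtain ⟨pA, hpA⟩ := (Polynomial.mem_lifts _).mp hpl
  set Y : LaurentSeries A := Polynomial.aeval X0 pA with hY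
  have hcoe : ((Polynomial.aeval x p : FN N') : LaurentSeries Kb) = incA A Y := by
    have h1 : ((Polynomial.aeval x p : FN N') : LaurentSeries Kb)
        = Polynomial.aeval (x : LaurentSeries Kb) p :=
      (Polynomial.aeval_algHom_apply (modularFunctionFieldBar N').val x p).symm
    rw [h1, hx, hY, coeffMap_aeval, hpA]
  have hred : redA A Y ≠ 0 := by
    rw [hY, coeffMap_aeval]
    intro h0
    have hzero : pA.map (IsLocalRing.residue A) = 0 := by
      by_contra hne
      exact htr ⟨_, hne, h0⟩
    obtain ⟨i, hi0, hiinv⟩ := hp1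
    have hci : (pA.coeff i : Kb) = p.coeff i := by
      have := congrArg (fun q : Polynomial Kb => q.coeff i) hpA
      simpa [Polynomial.coeff_map] using this
    have hres : IsLocalRing.residue A (pA.coeff i) = 0 := by
      have := congrArg (fun q : Polynomial (kA A) => q.coeff i) hzero
      simpa [Polynomial.coeff_map] using this
    rw [IsLocalRing.residue_eq_zero_iff, IsLocalRing.mem_maximalIdeal, mem_nonunits_iff] at hres
    apply hres
    have hne0 : pA.coeff i ≠ 0 := by
      intro h0'
      apply hi0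
      rw [← hci, h0']
      rfl
    refine isUnit_iff_exists_inv.mpr ⟨⟨(p.coeff i)⁻¹, hiinv⟩, ?_⟩
    apply Subtype.ext
    show (pA.coeff i : Kb) * (p.coeff i)⁻¹ = 1
    rw [hci, mul_inv_cancel₀ hi0]
  have hY0 : incA A Y ≠ 0 := by
    intro h0
    apply hred
    have : Y = 0 := incA_injective A (by rw [h0, map_zero])
    rw [this, map_zero]
  constructor
  · refine (hO _).mpr ⟨Y, 1, ?_, ?_⟩
    · rw [map_one]; exact one_ne_zero
    · rw [map_one, mul_one, hcoe]
  · refine (hO _).mpr ⟨1, Y, hred, ?_⟩
    have h1 : (((Polynomial.aeval x p : FN N')⁻¹ : FN N') : LaurentSeries Kb)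
        = ((Polynomial.aeval x p : FN N') : LaurentSeries Kb)⁻¹ := rfl
    rw [h1, hcoe, map_one, inv_mul_cancel₀ hY0]

/-- **B1c** one-units of `F_N` are one-units of `O`. -/
theorem IsGaussRing.oneUnit (hO : IsGaussRing A N' O)
    (hle : modularFunctionFieldBar N ≤ modularFunctionFieldBar N') (u : FN N)
    (hu : IsOneUnit A N u) : (IntermediateField.inclusion hle u : FN N') - 1 ∈ O.nonunits := by
  obtain ⟨y₁, y₂, hy, hy₂, -, hmul⟩ := hu
  rw [ValuationSubring.mem_nonunits_iff_or]
  by_contra hcon
  push Not at hcon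
  obtain ⟨hne, hinv⟩ := hcon
  obtain ⟨z₁, z₂, hz₂, hz⟩ := (hO _).mp hinv
  have hcoe : (((IntermediateField.inclusion hle u : FN N') - 1 : FN N') : LaurentSeries Kb)
      = (u : LaurentSeries Kb) - 1 := rfl
  have hne' : (u : LaurentSeries Kb) - 1 ≠ 0 := by
    intro h0
    apply hne
    apply Subtype.ext
    rw [hcoe, h0]
    rfl
  have hz' : incA A z₂ = ((u : LaurentSeries Kb) - 1) * incA A z₁ := by
    have h1 : ((((IntermediateField.inclusion hle u : FN N') - 1 : FN N')⁻¹ : FN N') :
        LaurentSeries Kb) = ((u : LaurentSeries Kb) - 1)⁻¹ := by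
      rw [← hcoe]; rfl
    rw [h1] at hz
    rw [← hz, ← mul_assoc, mul_inv_cancel₀ hne', one_mul]
  have hkey : incA A (z₂ * y₂) = incA A ((y₁ - y₂) * z₁) := by
    rw [map_mul, map_mul, map_sub, hz', ← hmul]
    ring
  have hkey' : z₂ * y₂ = (y₁ - y₂) * z₁ := incA_injective A hkey
  have hred := congrArg (redA A) hkey'
  rw [map_mul, map_mul, map_sub, hy, sub_self, zero_mul] at hred
  exact mul_ne_zero hz₂ hy₂ hred

end Ratio

/-! ### The integral series `j(q^d)` -/

theorem incA_jA (A : ValuationSubring Kb) (d : ℕ) [NeZero d] :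
    incA A (jA A d) = coeffEmb Kb (qExpand ℚ d jq) := by
  have h1 : incA A (jA A d) = jqNModC Kb d := coeffMap_jqNModC A.subtype d
  have h2 : coeffEmb Kb (qExpand ℚ d jq) = jqNModC Kb d := by
    have := coeffMap_jqNModC (algebraMap ℚ Kb) d
    rw [jqNModC, jqModC_rat] at this
    exact this
  rw [h1, h2]

theorem redA_jA (A : ValuationSubring Kb) (d : ℕ) [NeZero d] :
    redA A (jA A d) = jqNModC (kA A) d :=
  coeffMap_jqNModC (IsLocalRing.residue A) d

theorem transcendental_jqNModC (k : Type) [Field k] (d : ℕ) [NeZero d] :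
    Transcendental k (jqNModC k d) :=
  (Fermat.Agent.S28.H40.isMO_qExpand_jqModC (K := k) d).transcendental
    (neg_lt_zero.mpr (by exact_mod_cast Nat.pos_of_ne_zero (NeZero.ne d)))

end Fermat.Agent.S18.H28
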