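/-
S18 / wave 4 (helper28): the degree of `F_{N'}` over the top function `j(q^{N'})` in
characteristic zero (B2t of the bridge `exists_setup`):
`[F_{N'} : ℚ̄(j(q^{N'}))] = ψ(N')`, from helper55's `H55.finrank_jgen` (degree over `ℚ̄(j(q))`)
and helper50's Fricke involution `H50.exists_fricke`.
-/
import Fermat.Agent.S18.H28.BridgeDefs
import Fermat.Agent.S18.H50.Fricke
import Fermat.Agent.S18.H55.DegJ

set_option autoImplicit false

open AlgebraicCurve IntermediateField ModularCurve

noncomputable section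

namespace Fermat.Agent.S18.H28

open Fermat.Agent.S18.H74

/-- The Fricke involution as a `ℚ̄`-algebra automorphism of `F_N`, sending `j(q)` to `j(q^N)`. -/
theorem exists_frickeEquiv (N : ℕ) [NeZero N] :
    ∃ σ : FN N ≃ₐ[Kb] FN N, σ (Fermat.Agent.S24.jgen N) = jtop N := by
  obtain ⟨w, -, hww, hwK, hwj⟩ := Fermat.Agent.S18.H50.exists_fricke N
  refine ⟨{ toFun := w
            invFun := w
            left_inv := hww
            right_inv := hww
            map_mul' := map_mul w
            map_add' := map_add w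
            commutes' := hwK }, ?_⟩
  show w (Fermat.Agent.S24.jgen N) = jtop N
  rw [Fermat.Agent.S24.jgen, hwj, Fermat.Agent.S18.H50.fdiv_oneDiv]
  rfl

/-- The degree over `K(y)` is invariant under automorphisms. -/
theorem finrank_adjoin_apply_algEquiv {K F : Type*} [Field K] [Field F] [Algebra K F]
    (σ : F ≃ₐ[K] F) (y : F) :
    Module.finrank K⟮σ y⟯ F = Module.finrank K⟮y⟯ F := by
  have h1 : (K⟮y⟯).map (σ : F →ₐ[K] F) = K⟮σ y⟯ := by
    rw [IntermediateField.adjoin_map, Set.image_singleton]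
    rfl
  have h2 : (⊤ : IntermediateField K F).map (σ : F →ₐ[K] F) = ⊤ := by
    rw [← AlgHom.fieldRange_eq_map]
    exact AlgEquiv.fieldRange_eq_top σ
  have h3 := IntermediateField.relfinrank_map_map (K⟮y⟯) (⊤ : IntermediateField K F)
    (σ : F →ₐ[K] F)
  rw [h1, h2, IntermediateField.relfinrank_top_right, IntermediateField.relfinrank_top_right] at h3
  exact h3

/-- `[F_{N'} : ℚ̄(j(q^{N'}))] = ψ(N')`. -/
theorem finrank_top (N' : ℕ) [NeZero N'] :
    Module.finrank Kb⟮jtop N'⟯ (FN N') = dedekindPsi N' := by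
  obtain ⟨σ, hσ⟩ := exists_frickeEquiv N'
  rw [← hσ, finrank_adjoin_apply_algEquiv σ]
  exact Fermat.Agent.S18.H55.finrank_jgen N'

theorem dedekindPsi_pos' (N' : ℕ) [NeZero N'] : 0 < dedekindPsi N' := by
  have := Fermat.Agent.S18.H55.finiteDimensional_jgen N'
  rw [← Fermat.Agent.S18.H55.finrank_jgen N']
  exact Module.finrank_pos

/-- `F_{N'} / ℚ̄(j(q^{N'}))` is finite. -/
theorem finite_top (N' : ℕ) [NeZero N'] : FiniteDimensional Kb⟮jtop N'⟯ (FN N') :=
  FiniteDimensional.of_finrank_pos (by rw [finrank_top]; exact dedekindPsi_pos' N')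

/-- `[F_{N'} : ℚ̄(j(q^{N'}))] ≤ ψ(N')`. -/
theorem finrank_top_le (N' : ℕ) [NeZero N'] :
    Module.finrank Kb⟮jtop N'⟯ (FN N') ≤ dedekindPsi N' :=
  (finrank_top N').le

end Fermat.Agent.S18.H28
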