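/-
S18 / wave 4 (helper28): the bridge `exists_setup` (package B7; statement verbatim from
helper74's skeleton `H74/Top.lean`), assembled from the landed B-leaves:

* B1   `H66.exists_gaussRing`                       (helper66)
* B1c  `H28.IsGaussRing.mem_iff/gauss/oneUnit`      (helper28, `Ratio.lean`)
* B2   `H85.basis_of_degree`                        (helper85)
* B2t  `H28.incA_jA`, `redA_jA`, `transcendental_jqNModC`, `finite_top`, `finrank_top_le`
* B3   `H28.branchOK_top/two/three`                 (helper50 + helper28, `Branch.lean`)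
* B4   `H24.exists_haupt_two`, `H24.exists_haupt_three`   (helper24)
* B4d  `H25.degree_data_of_rel`                     (helper25)
* B6   `H60.modularFunctionFieldBar_mono`, `H60.index_self`, `H60.index_eq`   (helper60)
* `H60.unit_facts`, `H49.cartesian_of_setup_fields`, `H28.psi_le_relfinrank_kA`,
  `H28.separable_kA`.

Case split: `ℓ ≥ 5` — level `N`, base function `j(q^N)`; `ℓ = 3` — level `lcm(N, 2)`, base
function the Hauptmodul of `X₀(2)`; `ℓ = 2` — level `lcm(N, 3)`, Hauptmodul of `X₀(3)`.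
-/
import Fermat.Agent.S18.H28.BridgeDefs
import Fermat.Agent.S18.H28.Branch
import Fermat.Agent.S18.H28.TopFacts
import Fermat.Agent.S18.H28.Ratio
import Fermat.Agent.S18.H28.TopDeg
import Fermat.Agent.S18.H60.UnitFacts
import Fermat.Agent.S18.H60.IndexH28
import Fermat.Agent.S18.H49.Cartesian
import Fermat.Agent.S18.H66.Leaves
import Fermat.Agent.S18.H85.BasisDeg
import Fermat.Agent.S18.H24.HauptLeaf
import Fermat.Agent.S18.H25.DegreeLeaf

set_option autoImplicit false

open AlgebraicCurve IntermediateField ModularCurve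

noncomputable section

namespace Fermat.Agent.S18.H28

open Fermat.Agent.S18.H74

/-- Assembly: a base function with the degree / separability / branch data gives a `Setup`. -/
theorem setup_of_base (N' : ℕ) [NeZero N'] {ℓ : ℕ} [Fact ℓ.Prime] (hℓN' : ¬ ℓ ∣ N')
    (A : ValuationSubring Kb) (hA : A.LiesOverPrime ℓ) (hAtop : A ≠ ⊤)
    (O : ValuationSubring (FN N')) (hO : IsGaussRing A N' O)
    (hscale : ∀ f : FN N', f ≠ 0 → ∃ c : Kb, c ≠ 0 ∧ algebraMap Kb (FN N') c * f ∈ O ∧
        (algebraMap Kb (FN N') c * f)⁻¹ ∈ O)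
    (X0 : LaurentSeries A) (x : FN N') (hx : (x : LaurentSeries Kb) = incA A X0)
    (hxk : redA A X0 ∈ modularFunctionFieldFullC (kA A) N')
    (htr : Transcendental (kA A) (redA A X0))
    (hfin : FiniteDimensional Kb⟮x⟯ (FN N'))
    (hdeg : Module.finrank Kb⟮x⟯ (FN N') ≤
      IntermediateField.relfinrank (IntermediateField.adjoin (kA A) {redA A X0})
        (modularFunctionFieldFullC (kA A) N'))
    (hsep : ∀ y ∈ modularFunctionFieldFullC (kA A) N',
      IsSeparable (IntermediateField.adjoin (kA A) {redA A X0}) y)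
    (hbr : BranchOK A x) :
    Setup Kb A (FN N') O x := by
  have hgauss := hO.gauss X0 x hx htr
  have hbasis := Fermat.Agent.S18.H85.basis_of_degree N' hℓN' A hA O hO X0 x hx hxk htr
    hfin hdeg hsep
  refine
    { mem_iff := hO.mem_iff
      gauss := hgauss
      scale := hscale
      finite := hfin
      basis := hbasis
      branch := hbr.1
      branch_inv := hbr.2
      cartesian := ?_ }
  obtain ⟨θ, hθ, -⟩ := hbasis
  exact Fermat.Agent.S18.H49.cartesian_of_setup_fields hAtop hO.mem_iff hgauss hfin ⟨θ, hθ⟩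

/-- The Gauss ring of `F_{N'}` (helper66's B1, in the vocabulary of `BridgeDefs`). -/
theorem exists_isGaussRing (N' : ℕ) [NeZero N'] {ℓ : ℕ} [Fact ℓ.Prime] (hℓN' : ¬ ℓ ∣ N')
    (A : ValuationSubring Kb) (hA : A.LiesOverPrime ℓ) :
    ∃ O : ValuationSubring (FN N'), IsGaussRing A N' O ∧
      ∀ f : FN N', f ≠ 0 → ∃ c : Kb, c ≠ 0 ∧ algebraMap Kb (FN N') c * f ∈ O ∧
        (algebraMap Kb (FN N') c * f)⁻¹ ∈ O :=
  Fermat.Agent.S18.H66.exists_gaussRing N' hℓN' A hA

/-- Common core of the three cases. -/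
theorem exists_setup_of (N : ℕ) {ℓ : ℕ} [Fact ℓ.Prime]
    (A : ValuationSubring Kb) (hA : A.LiesOverPrime ℓ) (m : ℕ) (hm : ¬ ℓ ∣ m)
    (N' : ℕ) [NeZero N'] (hℓN' : ¬ ℓ ∣ N')
    (hle : modularFunctionFieldBar N ≤ modularFunctionFieldBar N')
    (hidx : letI := algFN N N' hle
      (Module.finrank (FN N) (FN N')).Coprime m ∧ Module.Finite (FN N) (FN N'))
    (X0 : LaurentSeries A) (x : FN N') (hx : (x : LaurentSeries Kb) = incA A X0)
    (hxk : redA A X0 ∈ modularFunctionFieldFullC (kA A) N')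
    (htr : Transcendental (kA A) (redA A X0))
    (hfin : FiniteDimensional Kb⟮x⟯ (FN N'))
    (hdeg : Module.finrank Kb⟮x⟯ (FN N') ≤
      IntermediateField.relfinrank (IntermediateField.adjoin (kA A) {redA A X0})
        (modularFunctionFieldFullC (kA A) N'))
    (hsep : ∀ y ∈ modularFunctionFieldFullC (kA A) N',
      IsSeparable (IntermediateField.adjoin (kA A) {redA A X0}) y)
    (hbr : BranchOK A x) :
    ∃ (N' : ℕ) (_ : NeZero N') (hle : modularFunctionFieldBar N ≤ modularFunctionFieldBar N')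
      (O : ValuationSubring (FN N')) (x : FN N'),
      Setup Kb A (FN N') O x ∧
      (letI := algFN N N' hle;
        (Module.finrank (FN N) (FN N')).Coprime m ∧ Module.Finite (FN N) (FN N')) ∧
      ∀ u : FN N, IsOneUnit A N u → (IntermediateField.inclusion hle u : FN N') - 1 ∈ O.nonunits := by
  obtain ⟨O, hO, hscale⟩ := exists_isGaussRing N' hℓN' A hA
  obtain ⟨hAtop, -, -, -⟩ := Fermat.Agent.S18.H60.unit_facts A hA m hm
  exact ⟨N', inferInstance, hle, O, x,
    setup_of_base N' hℓN' A hA hAtop O hO hscale X0 x hx hxk htr hfin hdeg hsep hbr,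
    hidx, fun u hu => hO.oneUnit hle u hu⟩

/-- Units of `A`: `n⁻¹ ∈ A` for `ℓ ∤ n`. -/
theorem inv_natCast_mem {ℓ : ℕ} [Fact ℓ.Prime] (A : ValuationSubring Kb) (hA : A.LiesOverPrime ℓ)
    (n : ℕ) (hn : ¬ ℓ ∣ n) : ((n : ℕ) : Kb)⁻¹ ∈ A :=
  Fermat.Agent.S18.H60.natCast_inv_mem_of_not_dvd A hA n hn

theorem two_inv_mem {ℓ : ℕ} [Fact ℓ.Prime] (A : ValuationSubring Kb) (hA : A.LiesOverPrime ℓ)
    (h2 : ℓ ≠ 2) : (2 : Kb)⁻¹ ∈ A := by
  have h := inv_natCast_mem A hA 2 (fun h =>
    h2 ((Nat.prime_dvd_prime_iff_eq Fact.out Nat.prime_two).mp h))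
  simpa using h

theorem three_inv_mem {ℓ : ℕ} [Fact ℓ.Prime] (A : ValuationSubring Kb) (hA : A.LiesOverPrime ℓ)
    (h3 : ℓ ≠ 3) : (3 : Kb)⁻¹ ∈ A := by
  have h := inv_natCast_mem A hA 3 (fun h =>
    h3 ((Nat.prime_dvd_prime_iff_eq Fact.out Nat.prime_three).mp h))
  simpa using h

/-- Case `ℓ ≥ 5`: level `N`, base function `j(q^N)`. -/
theorem exists_setup_five (N : ℕ) [NeZero N] {ℓ : ℕ} [Fact ℓ.Prime] (hℓN : ¬ ℓ ∣ N)
    (A : ValuationSubring Kb) (hA : A.LiesOverPrime ℓ) (m : ℕ) (hm : ¬ ℓ ∣ m)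
    (h2 : ℓ ≠ 2) (h3 : ℓ ≠ 3) :
    ∃ (N' : ℕ) (_ : NeZero N') (hle : modularFunctionFieldBar N ≤ modularFunctionFieldBar N')
      (O : ValuationSubring (FN N')) (x : FN N'),
      Setup Kb A (FN N') O x ∧
      (letI := algFN N N' hle;
        (Module.finrank (FN N) (FN N')).Coprime m ∧ Module.Finite (FN N) (FN N')) ∧
      ∀ u : FN N, IsOneUnit A N u → (IntermediateField.inclusion hle u : FN N') - 1 ∈ O.nonunits := by
  have hidx := Fermat.Agent.S18.H60.index_self N
  refine exists_setup_of N A hA m hm N hℓN le_rfl ?_ (jA A N) (jtop N)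
    (incA_jA A N).symm ?_ ?_ (finite_top N) ?_ ?_
    (branchOK_top N A (two_inv_mem A hA h2) (three_inv_mem A hA h3))
  · exact ⟨(congrArg (fun n => Nat.Coprime n m) hidx.1).mpr (Nat.coprime_one_left m), hidx.2⟩
  · rw [redA_jA]; exact jqModCd_mem_full (kA A) N dvd_rfl
  · rw [redA_jA]; exact transcendental_jqNModC (kA A) N
  · rw [redA_jA]; exact (finrank_top_le N).trans (psi_le_relfinrank_kA N hℓN A hA)
  · rw [redA_jA]; exact separable_kA N hℓN A hA

/-- Cases `ℓ = 3` (`M = 2`) and `ℓ = 2` (`M = 3`): level `lcm(N, M)`, base function the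
Hauptmodul of `X₀(M)` in the variable `q^{N'/M}`. -/
theorem exists_setup_haupt (N : ℕ) [NeZero N] {ℓ : ℕ} [Fact ℓ.Prime] (hℓN : ¬ ℓ ∣ N)
    (A : ValuationSubring Kb) (hA : A.LiesOverPrime ℓ) (m : ℕ) (hm : ¬ ℓ ∣ m)
    (M : ℕ) (hM : M.Prime) (hℓM : ℓ ≠ M) (hcop : (M + 1).Coprime m)
    (Nm : Polynomial ℤ) (hNm : Nm.Monic) (hNm1 : 1 < Nm.natDegree)
    (hNm0 : ¬ (ℓ : ℤ) ∣ Nm.eval 0)
    (hH : ∀ (N' : ℕ) [NeZero N'], M ∣ N' →
      ∃ (X0 : LaurentSeries A) (x : FN N'), (x : LaurentSeries Kb) = incA A X0 ∧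
        redA A X0 ∈ modularFunctionFieldFullC (kA A) N' ∧
        Transcendental (kA A) (redA A X0) ∧
        jtop N' * x = Polynomial.eval₂ (Int.castRingHom (FN N')) x Nm ∧
        jqNModC (kA A) N' * redA A X0 =
          Polynomial.eval₂ (Int.castRingHom (LaurentSeries (kA A))) (redA A X0) Nm)
    (hB : ∀ (N' : ℕ) [NeZero N'] (x : FN N'),
      jtop N' * x = Polynomial.eval₂ (Int.castRingHom (FN N')) x Nm → BranchOK A x) :
    ∃ (N' : ℕ) (_ : NeZero N') (hle : modularFunctionFieldBar N ≤ modularFunctionFieldBar N')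
      (O : ValuationSubring (FN N')) (x : FN N'),
      Setup Kb A (FN N') O x ∧
      (letI := algFN N N' hle;
        (Module.finrank (FN N) (FN N')).Coprime m ∧ Module.Finite (FN N) (FN N')) ∧
      ∀ u : FN N, IsOneUnit A N u → (IntermediateField.inclusion hle u : FN N') - 1 ∈ O.nonunits := by
  have hℓ : ℓ.Prime := Fact.out
  by_cases hMN : M ∣ N
  · obtain ⟨X0, x, hx, hxk, htr, hrel, hrelk⟩ := hH N hMN
    obtain ⟨hfin, hdeg, hsep⟩ :=
      Fermat.Agent.S18.H25.degree_data_of_rel N hℓN A hA X0 x hx hxk htr Nm hNm hNm1 hNm0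
        hrel hrelk
    have hidx := Fermat.Agent.S18.H60.index_self N
    exact exists_setup_of N A hA m hm N hℓN le_rfl
      ⟨(congrArg (fun n => Nat.Coprime n m) hidx.1).mpr (Nat.coprime_one_left m), hidx.2⟩
      X0 x hx hxk htr hfin hdeg hsep (hB N x hrel)
  · have : NeZero (N * M) := ⟨Nat.mul_ne_zero (NeZero.ne N) hM.ne_zero⟩
    have hℓN' : ¬ ℓ ∣ N * M := by
      intro h
      rcases (Nat.Prime.dvd_mul hℓ).mp h with h | h
      · exact hℓN h
      · exact hℓM ((Nat.prime_dvd_prime_iff_eq hℓ hM).mp h)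
    have hle : modularFunctionFieldBar N ≤ modularFunctionFieldBar (N * M) :=
      Fermat.Agent.S18.H60.modularFunctionFieldBar_mono (dvd_mul_right N M)
    obtain ⟨X0, x, hx, hxk, htr, hrel, hrelk⟩ := hH (N * M) (dvd_mul_left M N)
    obtain ⟨hfin, hdeg, hsep⟩ :=
      Fermat.Agent.S18.H25.degree_data_of_rel (N * M) hℓN' A hA X0 x hx hxk htr Nm hNm hNm1
        hNm0 hrel hrelk
    have hidx := Fermat.Agent.S18.H60.index_eq N M hM hMN hle
    exact exists_setup_of N A hA m hm (N * M) hℓN' hle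
      ⟨(congrArg (fun n => Nat.Coprime n m) hidx.1).mpr hcop, hidx.2⟩
      X0 x hx hxk htr hfin hdeg hsep (hB (N * M) x hrel)

/-- **The bridge `exists_setup`** (statement verbatim from `H74/Top.lean`). -/
theorem exists_setup (N : ℕ) [NeZero N] {ℓ : ℕ} [Fact ℓ.Prime] (hℓN : ¬ ℓ ∣ N)
    (A : ValuationSubring Kb) (hA : A.LiesOverPrime ℓ) (m : ℕ) (hm : ¬ ℓ ∣ m) :
    ∃ (N' : ℕ) (_ : NeZero N') (hle : modularFunctionFieldBar N ≤ modularFunctionFieldBar N')
      (O : ValuationSubring (FN N')) (x : FN N'),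
      Setup Kb A (FN N') O x ∧
      (letI := algFN N N' hle;
        (Module.finrank (FN N) (FN N')).Coprime m ∧ Module.Finite (FN N) (FN N')) ∧
      ∀ u : FN N, IsOneUnit A N u → (IntermediateField.inclusion hle u : FN N') - 1 ∈ O.nonunits := by
  by_cases h3 : ℓ = 3
  · -- level `lcm(N, 2)`, Hauptmodul of `X₀(2)`
    subst h3
    have hcop : (2 + 1).Coprime m := (Nat.Prime.coprime_iff_not_dvd Nat.prime_three).mpr hm
    refine exists_setup_haupt N hℓN A hA m hm 2 Nat.prime_two (by norm_num) hcop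
      nmTwo nmTwo_monic (by rw [nmTwo_natDegree]; norm_num)
      (by rw [nmTwo_eval_zero]; norm_num) ?_ ?_
    · intro N' _ h2
      obtain ⟨X0, x, hx, hxk, htr, hrel, hrelk⟩ :=
        Fermat.Agent.S18.H24.exists_haupt_two N' h2 A hA (by norm_num : (3 : ℕ) ≠ 2)
      exact ⟨X0, x, hx, hxk, htr, hrel.trans (eval₂_nmTwo x).symm,
        hrelk.trans (eval₂_nmTwo _).symm⟩
    · intro N' _ x hrel
      exact branchOK_two N' A (two_inv_mem A hA (by norm_num)) x (hrel.trans (eval₂_nmTwo x))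
  by_cases h2 : ℓ = 2
  · -- level `lcm(N, 3)`, Hauptmodul of `X₀(3)`
    subst h2
    have hcop : (3 + 1).Coprime m := by
      have h : Nat.Coprime 2 m := (Nat.Prime.coprime_iff_not_dvd Nat.prime_two).mpr hm
      exact Nat.Coprime.pow_left 2 h
    refine exists_setup_haupt N hℓN A hA m hm 3 Nat.prime_three (by norm_num) hcop
      nmThree nmThree_monic (by rw [nmThree_natDegree]; norm_num)
      (by rw [nmThree_eval_zero]; norm_num) ?_ ?_
    · intro N' _ h3'
      obtain ⟨X0, x, hx, hxk, htr, hrel, hrelk⟩ :=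
        Fermat.Agent.S18.H24.exists_haupt_three N' h3' A hA (by norm_num : (2 : ℕ) ≠ 3)
      exact ⟨X0, x, hx, hxk, htr, hrel.trans (eval₂_nmThree x).symm,
        hrelk.trans (eval₂_nmThree _).symm⟩
    · intro N' _ x hrel
      exact branchOK_three N' A (three_inv_mem A hA (by norm_num)) x
        (hrel.trans (eval₂_nmThree x))
  · exact exists_setup_five N hℓN A hA m hm h2 h3

end Fermat.Agent.S18.H28
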