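/-
S18 / wave 4 (helper28): the residue field of a valuation subring `A` of `ℚ̄` lying over `ℓ`:
characteristic `ℓ` (`kA_charP`) and algebraically closed (`kA_isAlgClosed`).  Sorry-free.
-/
import Fermat.Agent.S18.H28.BridgeDefs

set_option autoImplicit false

open AlgebraicCurve IntermediateField ModularCurve

noncomputable section

namespace Fermat.Agent.S18.H28

open Fermat.Agent.S18.H74

/-- The residue field of a valuation subring of `ℚ̄` lying over `ℓ` has characteristic `ℓ`. -/
theorem kA_charP (A : ValuationSubring Kb) {ℓ : ℕ} [hℓ : Fact ℓ.Prime] (hA : A.LiesOverPrime ℓ) :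
    CharP (kA A) ℓ := by
  have h0 : ((ℓ : ℕ) : kA A) = 0 := by
    have h1 : ((ℓ : A) : Kb) = (ℓ : Kb) := by push_cast; rfl
    have h2 : (ℓ : A) ∈ IsLocalRing.maximalIdeal A := by
      rw [IsLocalRing.mem_maximalIdeal, mem_nonunits_iff]
      intro hu
      have : ((ℓ : A) : Kb) ∈ A.nonunits := h1 ▸ hA
      rw [ValuationSubring.mem_nonunits_iff_exists_mem_maximalIdeal] at this
      obtain ⟨ha, hmem⟩ := this
      exact (IsLocalRing.mem_maximalIdeal _).mp hmem hu
    have h3 : IsLocalRing.residue A (ℓ : A) = 0 := (IsLocalRing.residue_eq_zero_iff _).mpr h2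
    rw [← h3, map_natCast]
  exact (CharP.charP_iff_prime_eq_zero hℓ.out).mpr h0

/-- The residue field of a valuation subring of an algebraically closed field is algebraically
closed. -/
theorem kA_isAlgClosed (A : ValuationSubring Kb) : IsAlgClosed (kA A) := by
  refine IsAlgClosed.of_exists_root _ fun p hp hirr => ?_
  obtain ⟨q, hq, hdeg, hqm⟩ := Polynomial.lifts_and_degree_eq_and_monic
    (Polynomial.mem_lifts_of_surjective IsLocalRing.residue_surjective p) hp
  have hpdeg : p.degree ≠ 0 := Polynomial.degree_ne_of_natDegree_ne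
    (Polynomial.natDegree_pos_iff_degree_pos.mpr (Polynomial.degree_pos_of_irreducible hirr)).ne'
  have hq0 : (q.map (algebraMap A Kb)).degree ≠ 0 := by
    rw [hqm.degree_map, hdeg]
    exact hpdeg
  obtain ⟨z, hz⟩ := IsAlgClosed.exists_root (q.map (algebraMap A Kb)) hq0
  have hzint : IsIntegral A z := ⟨q, hqm, by
    rw [← Polynomial.eval_map]; exact hz⟩
  obtain ⟨y, hy⟩ := IsIntegrallyClosed.isIntegral_iff.mp hzint
  refine ⟨IsLocalRing.residue A y, ?_⟩
  have hy0 : q.eval y = 0 := by
    have h1 : algebraMap A Kb (q.eval y) = 0 := by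
      rw [← Polynomial.eval₂_at_apply, Polynomial.eval₂_eq_eval_map, hy]
      exact hz
    exact (injective_iff_map_eq_zero (algebraMap A Kb)).mp
      (FaithfulSMul.algebraMap_injective A Kb) _ h1
  rw [← hq, Polynomial.eval_map, Polynomial.eval₂_at_apply, hy0, map_zero]

end Fermat.Agent.S18.H28
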