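/-
S18 / wave 4 (helper28): the top of Program J with the bridge B7 DISCHARGED.

* `setupStatement`  : `H74.SetupStatement N A m` for every `m` prime to `ℓ` (= `H28.exists_setup`);
* `s18_of_clear`    : S18  ⟸  `H74.ClearStatement` (leaf C1 = `exists_clear`) ALONE
                      (via helper29's count `H29.s18_of_setup_clear`);
* `s18_of_absT`     : S18  ⟸  `H74.AbsTStatement` for the prime exponents `p ≠ ℓ` ALONE
                      (via helper74's `H74.s18_of_setup_absT`; the entry point of core 2).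

So `Fermat.Agent.S18.result` is `s18_of_clear N hℓN A hA h hclear m hm z hmz hz` (or
`s18_of_absT N hℓN A hA h habs m hm z hmz hz`) as soon as one of the two cores is closed.
-/
import Fermat.Agent.S18.H28.ExistsSetup
import Fermat.Agent.S18.H29.Final

set_option autoImplicit false

open AlgebraicCurve IntermediateField ModularCurve

noncomputable section

namespace Fermat.Agent.S18.H28

open Fermat.Agent.S18.H74

/-- The bridge B7 in the form consumed by the assemblies of helper74 / helper29. -/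
theorem setupStatement (N : ℕ) [NeZero N] {ℓ : ℕ} [Fact ℓ.Prime] (hℓN : ¬ ℓ ∣ N)
    (A : ValuationSubring Kb) (hA : A.LiesOverPrime ℓ) (m : ℕ) (hm : ¬ ℓ ∣ m) :
    SetupStatement N A m := by
  obtain ⟨N', _, hle, O, x, h⟩ := exists_setup N hℓN A hA m hm
  exact ⟨N', hle, O, x, h⟩

/-- The bridge for the prime exponents `p ≠ ℓ`. -/
theorem setupStatement_prime (N : ℕ) [NeZero N] {ℓ : ℕ} [Fact ℓ.Prime] (hℓN : ¬ ℓ ∣ N)
    (A : ValuationSubring Kb) (hA : A.LiesOverPrime ℓ) (p : ℕ) (hp : p.Prime) (hpℓ : p ≠ ℓ) :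
    SetupStatement N A p :=
  setupStatement N hℓN A hA p
    (fun h => hpℓ ((Nat.prime_dvd_prime_iff_eq Fact.out hp).mp h).symm)

/-- **S18 from the clearing lemma (C1) alone.** -/
theorem s18_of_clear (N : ℕ) [NeZero N] {ℓ : ℕ} [Fact ℓ.Prime] (hℓN : ¬ ℓ ∣ N)
    (A : ValuationSubring (AlgebraicClosure ℚ)) (hA : A.LiesOverPrime ℓ)
    (h : ModularCurve.ReductionInputsModL A N)
    (hclear : ∀ (N' : ℕ) (O : ValuationSubring (FN N')) (x : FN N'), Setup Kb A (FN N') O x →
      ∀ m : ℕ, m ≠ 0 → ClearStatement Kb A (FN N') O x m)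
    (m : ℕ) (hm : ¬ ℓ ∣ m) (z : ModularCurve.JZero N)
    (hmz : m • z = 0) (hz : ModularCurve.reductionModL A N z = 0) : z = 0 :=
  Fermat.Agent.S18.H29.s18_of_setup_clear N A hA h
    (fun p hp hpℓ => setupStatement_prime N hℓN A hA p hp hpℓ) hclear m hm z hmz hz

/-- **S18 from the abstract Theorem T for prime exponents `p ≠ ℓ` alone.** -/
theorem s18_of_absT (N : ℕ) [NeZero N] {ℓ : ℕ} [Fact ℓ.Prime] (hℓN : ¬ ℓ ∣ N)
    (A : ValuationSubring (AlgebraicClosure ℚ)) (hA : A.LiesOverPrime ℓ)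
    (h : ModularCurve.ReductionInputsModL A N)
    (habs : ∀ p : ℕ, p.Prime → p ≠ ℓ → ∀ (N' : ℕ) (O : ValuationSubring (FN N')) (x : FN N'),
      Setup Kb A (FN N') O x → AbsTStatement Kb (FN N') O p)
    (m : ℕ) (hm : ¬ ℓ ∣ m) (z : ModularCurve.JZero N)
    (hmz : m • z = 0) (hz : ModularCurve.reductionModL A N z = 0) : z = 0 :=
  s18_of_setup_absT N A h
    (fun p hp hpℓ => setupStatement_prime N hℓN A hA p hp hpℓ) habs m hm z hmz hz

end Fermat.Agent.S18.H28
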